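/-
S56 / ORD, leaf ARITH-BASEINDEX.  `[Kˣ : Kˣᵖ] = p²` for the decomposition field `K = kF (Dq p)`
(the henselisation of `ℚ` at `p`), `p` odd:  `Loc.Arith.index_range_pow_field` gives
`p · #μ_p(K) · #(O/pO)`, `#(O/pO) = p` (`card_quot_base`) and `μ_p(K) = 1` because some element of
inertia moves every nontrivial `p`-th root of unity (`exists_inertia_pow`).
Model: the proof of `index_pow_fixH` in `S55/Loc/Field/PowIdx.lean`.
-/
import Fermat.Agent.S55.Loc.Field.PowIdx
import Fermat.Agent.S56.Ord.Arith.Roots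

set_option autoImplicit false

namespace Fermat.Agent.S56.Ord

open Fermat.Agent.S55 Fermat.Agent.S55.Loc.Field

private theorem BaseIndex_index_eq {G G' : Type*} [CommGroup G] [CommGroup G'] (e : G ≃* G')
    (p : ℕ) :
    (powMonoidHom p : G →* G).range.index = (powMonoidHom p : G' →* G').range.index := by
  have h : (powMonoidHom p : G →* G).range.map (e : G →* G') =
      (powMonoidHom p : G' →* G').range := by
    ext y
    constructor
    · rintro ⟨_, ⟨x, rfl⟩, rfl⟩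
      exact ⟨e x, (map_pow e x p).symm⟩
    · rintro ⟨y, rfl⟩
      exact ⟨(e.symm y) ^ p, ⟨e.symm y, rfl⟩, by simp⟩
  rw [← h, Subgroup.index_map_equiv]

/-- There is no nontrivial `p`-th root of unity in the decomposition field. -/
private theorem BaseIndex_eq_one (p : Nat.Primes) (hp2 : (p : ℕ) ≠ 2) {x : Qb}
    (hx : x ∈ kF (Dq p)) (hxp : x ^ (p : ℕ) = 1) : x = 1 := by
  obtain ⟨τ, hτ, a, ha, ha1, hpa⟩ :=
    exists_inertia_pow (p : ℕ) p.2 hp2 (plc p) (plc_liesOverPrime p)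
  have hτD : τ ∈ Dq p := by
    obtain ⟨i, -, rfl⟩ := hτ
    exact i.2
  have h1 : τ x = x := mem_kF.1 hx τ hτD
  have h2 : x ^ a = x := by rw [← ha x hxp, h1]
  have hx0 : x ≠ 0 := by
    rintro rfl
    rw [zero_pow p.2.ne_zero] at hxp
    exact zero_ne_one hxp
  have h3 : x ^ (a - 1) = 1 := by
    have h4 : x ^ (a - 1) * x = 1 * x := by
      rw [← pow_succ, Nat.sub_add_cancel ha1, h2, one_mul]
    exact mul_right_cancel₀ hx0 h4
  have hcop : Nat.Coprime (p : ℕ) (a - 1) := (Nat.Prime.coprime_iff_not_dvd p.2).2 hpa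
  have h5 := pow_gcd_eq_one.2 ⟨hxp, h3⟩
  rwa [hcop.gcd_eq_one, pow_one] at h5

theorem index_pow_fixH_base (p : Nat.Primes) (hp2 : (p : ℕ) ≠ 2) :
    (powMonoidHom (p : ℕ) : fixH (Dq p) →* fixH (Dq p)).range.index = (p : ℕ) ^ 2 := by
  have hker : (powMonoidHom (p : ℕ) : (kF (Dq p))ˣ →* (kF (Dq p))ˣ).ker = ⊥ := by
    rw [eq_bot_iff]
    intro x hx
    rw [MonoidHom.mem_ker, powMonoidHom_apply] at hx
    rw [Subgroup.mem_bot]
    have h1 : (((x : kF (Dq p)) : Qb)) ^ (p : ℕ) = 1 := by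
      have := congrArg (fun y : (kF (Dq p))ˣ => ((y : kF (Dq p)) : Qb)) hx
      simpa using this
    have h2 := BaseIndex_eq_one p hp2 (x : kF (Dq p)).2 h1
    exact Units.ext (Subtype.ext h2)
  have h1 := (Loc.Arith.index_range_pow_field (oF p (Dq p)) (kF (Dq p)) (p : ℕ) p.2.pos).2.2
  rw [BaseIndex_index_eq (fixEquiv (Dq p)) (p : ℕ), h1, hker, Subgroup.card_bot,
    card_quot_base p (p : ℕ) p.2, if_pos rfl, mul_one, sq]

end Fermat.Agent.S56.Ord
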