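/-
S56 / ORD, leaf ARITH-H0KL.  `H⁰_q(ℚ̄ˣ) = (kF (Dq q))ˣ`, on the level of the index of `n`-th powers.
-/
import Fermat.Agent.S55.Loc.Field.L8

set_option autoImplicit false

namespace Fermat.Agent.S56.Ord

open Fermat.Agent.S55 Fermat.Agent.S55.Loc.Field

private theorem H0KL_index_range_nsmul {M M' : Type} [AddCommGroup M] [AddCommGroup M']
    (e : M ≃+ M') (p : ℕ) : (nsmulAddMonoidHom (α := M) p).range.index =
      (nsmulAddMonoidHom (α := M') p).range.index := by
  have h : (nsmulAddMonoidHom (α := M') p).range =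
      (nsmulAddMonoidHom (α := M) p).range.map (e : M →+ M') := by
    ext x
    constructor
    · rintro ⟨z, rfl⟩
      refine ⟨p • e.symm z, ⟨e.symm z, rfl⟩, ?_⟩
      show e (p • e.symm z) = p • z
      rw [map_nsmul, AddEquiv.apply_symm_apply]
    · rintro ⟨_, ⟨z, rfl⟩, rfl⟩
      refine ⟨e z, ?_⟩
      show p • e z = e (p • z)
      rw [map_nsmul]
  rw [h, AddSubgroup.index_map_equiv]

private theorem H0KL_index_additive {N : Type} [CommGroup N] (p : ℕ) :
    (nsmulAddMonoidHom (α := Additive N) p).range.index =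
      (powMonoidHom p : N →* N).range.index := by
  have h : (nsmulAddMonoidHom (α := Additive N) p).range =
      Subgroup.toAddSubgroup (powMonoidHom p : N →* N).range := by
    ext x
    constructor
    · rintro ⟨z, rfl⟩
      exact ⟨Additive.toMul z, rfl⟩
    · rintro ⟨z, hz⟩
      exact ⟨Additive.ofMul z, hz⟩
  rw [h]
  rfl

private theorem H0KL_mem_iff (q : Nat.Primes) (x : Qbˣ) :
    toAL q x ∈ inv0 (Gv q) (KL q) ↔ x ∈ fixH (Dq q) := by
  rw [← img_top, ← toAL_mem_fixA_iff]
  exact ⟨fun h u _ => h u, fun h u => h u (Subgroup.mem_top u)⟩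

/-- `A^G = (kF (Dq q))ˣ`. -/
private noncomputable def H0KL_fixEquiv (q : Nat.Primes) :
    inv0 (Gv q) (KL q) ≃+ Additive (fixH (Dq q)) where
  toFun a := Additive.ofMul ⟨(toAL q).symm (a : KL q), (H0KL_mem_iff q _).1 (by
    rw [Equiv.apply_symm_apply]; exact a.2)⟩
  invFun x := ⟨toAL q ((Additive.toMul x : fixH (Dq q)) : Qbˣ),
    (H0KL_mem_iff q _).2 (Additive.toMul x).2⟩
  left_inv a := Subtype.ext (Equiv.apply_symm_apply _ _)
  right_inv x := rfl
  map_add' _ _ := rfl

theorem index_nsmul_H0_KL (q : Nat.Primes) (n : ℕ) :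
    (nsmulAddMonoidHom (α := Hsm (lvlLoc q) (KL q) 0) n).range.index =
      (powMonoidHom n : fixH (Dq q) →* fixH (Dq q)).range.index := by
  rw [H0KL_index_range_nsmul (Hsm.H0equiv.trans (H0KL_fixEquiv q)), H0KL_index_additive]

end Fermat.Agent.S56.Ord
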