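/-
S56 / ORD, leaf ARITH-H90.  Hilbert 90 for the local Galois group: `H¹_q(ℚ̄ˣ) = 0`
(from field `L1` of `LocPkg`, with `Y` a point).
-/
import Fermat.Agent.S55.Loc.Main

set_option autoImplicit false

namespace Fermat.Agent.S56.Ord

open Fermat.Agent.S55

theorem H1_KL_eq_zero (q : Nat.Primes) (y : Hsm (lvlLoc q) (KL q) 1) : y = 0 := by
  have : Fact (Nat.Prime 2) := ⟨Nat.prime_two⟩
  obtain ⟨L⟩ := Loc.locPkg_exists 2 q
  have : SmoothSet (lvlLoc q) PUnit.{1} := by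
    refine ⟨fun x => ?_⟩
    obtain ⟨N, hN⟩ := (lvlLoc q).nonempty
    exact ⟨N, hN, fun _ _ => rfl⟩
  have hbij : Function.Bijective
      (Hsm.map (𝓝 := lvlLoc q) (IndMod.const (G := Gv q) PUnit.{1} (KL q)) 1) := by
    apply Hsm.map_bijective
    refine ⟨IndMod.const_injective, fun f => ⟨f PUnit.unit, ?_⟩⟩
    ext x
    rfl
  apply hbij.1
  rw [map_zero]
  exact L.L1 PUnit.{1} _

end Fermat.Agent.S56.Ord
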