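/-
S56 / ORD, node ARITH-MUH1.  `#H¹_p(μ_p) = p²` for `p` odd (Kummer theory):
`ResMod.shortExact_map (ιv p) (Loc.shortExact_kummer p hdiv)`, COH-COKER, ARITH-H90, ARITH-H0KL,
ARITH-BASEINDEX.   (assembly: helper80)
-/
import Fermat.Agent.S56.Ord.Coh.Coker
import Fermat.Agent.S56.Ord.Arith.H90
import Fermat.Agent.S56.Ord.Arith.H0KL
import Fermat.Agent.S56.Ord.Arith.BaseIndex
import Fermat.Agent.S55.Loc.Coh.Kummer

set_option autoImplicit false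

namespace Fermat.Agent.S56.Ord

open Fermat.Agent.S55

/-- `ℚ̄ˣ` is divisible -/
private theorem MuH1_div (m : ℕ) (hm : 0 < m) (c : Kx) : ∃ b : Kx, m • b = c := by
  obtain ⟨y, hy⟩ := IsAlgClosed.exists_pow_nat_eq c.val hm
  have hc0 : c.val ≠ 0 := (Additive.toMul c : Qbˣ).ne_zero
  have hy0 : y ≠ 0 := by
    intro h
    rw [h, zero_pow hm.ne'] at hy
    exact hc0 hy.symm
  refine ⟨Additive.ofMul (Units.mk0 y hy0), ?_⟩
  apply Additive.toMul.injective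
  apply Units.ext
  show ((Units.mk0 y hy0 ^ m : Qbˣ) : Qb) = c.val
  rw [Units.val_pow_eq_pow_val, Units.val_mk0, hy]

theorem card_H1_mu (p : Nat.Primes) (hp2 : (p : ℕ) ≠ 2) :
    Finite (Hloc p (Mu p) 1) ∧ Nat.card (Hloc p (Mu p) 1) = (p : ℕ) ^ 2 := by
  have hp : (p : ℕ).Prime := p.2
  have hS := ResMod.shortExact_map (ιv p)
    (Loc.shortExact_kummer (G := GQ) (A := Kx) (p : ℕ) (MuH1_div (p : ℕ) hp.pos))
  have h1 := card_H1_eq_index (𝓝 := lvlLoc p) hS (H1_KL_eq_zero p)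
  have hmap : Hsm.map (𝓝 := lvlLoc p) (ResMod.map (ιv p) (Loc.mulP GQ Kx (p : ℕ))) 0 =
      nsmulAddMonoidHom (α := Hsm (lvlLoc p) (KL p) 0) (p : ℕ) :=
    AddMonoidHom.ext fun x => Hsm.map_nsmul' (p : ℕ) (fun _ => rfl) 0 x
  have hrange : (Hsm.map (𝓝 := lvlLoc p) (ResMod.map (ιv p) (Loc.mulP GQ Kx (p : ℕ))) 0).range =
      (nsmulAddMonoidHom (α := Hsm (lvlLoc p) (KL p) 0) (p : ℕ)).range := by
    rw [hmap]
  rw [hrange, index_nsmul_H0_KL, index_pow_fixH_base p hp2] at h1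
  have hcard : Nat.card (Hloc p (Mu p) 1) = (p : ℕ) ^ 2 := h1
  refine ⟨Nat.finite_of_card_ne_zero ?_, hcard⟩
  rw [hcard]
  exact pow_ne_zero 2 hp.ne_zero

end Fermat.Agent.S56.Ord
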