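/-
S56 / ORD, leaf ARITH-ROOTS.  The action of `G_ℚ` on `μ_p` by powers; inertia at `p` acts
nontrivially (`BR.cycN_spec`, `BR.cycN_inertia_surjective_prime`).
-/
import Fermat.Agent.S55.BR.CycInertia
import Fermat.Agent.S55.Arith.Defs

set_option autoImplicit false

namespace Fermat.Agent.S56.Ord

open Fermat.Agent.S55

/-- For every `σ` there is an exponent. -/
theorem exists_pow (p : ℕ) (hp : p.Prime) (σ : GQ) :
    ∃ a : ℕ, ∀ μ : Qb, μ ^ p = 1 → σ μ = μ ^ a := by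
  have : NeZero p := ⟨hp.ne_zero⟩
  exact ⟨_, fun μ hμ => BR.cycN_spec p σ μ hμ⟩

/-- The exponent is prime to `p`. -/
theorem not_dvd_of_pow (p : ℕ) (hp : p.Prime) (σ : GQ) (a : ℕ)
    (h : ∀ μ : Qb, μ ^ p = 1 → σ μ = μ ^ a) : ¬ p ∣ a := by
  have : NeZero p := ⟨hp.ne_zero⟩
  obtain ⟨ζ, hζ⟩ := BR.Cyc.exists_primitiveRoot p
  rintro ⟨b, rfl⟩
  have h1 : σ ζ = 1 := by rw [h ζ hζ.pow_eq_one, pow_mul, hζ.pow_eq_one, one_pow]
  have h2 : ζ = 1 := σ.injective (by rw [h1, map_one])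
  exact hζ.ne_one hp.one_lt h2

/-- Some element of the inertia group at `p` acts on `μ_p` as the `a`-th power, `a ≢ 1`. -/
theorem exists_inertia_pow (p : ℕ) (hp : p.Prime) (hp2 : p ≠ 2) (P : ValuationSubring Qb)
    (hP : P.LiesOverPrime p) :
    ∃ τ ∈ P.inertiaSubgroupIn ℚ, ∃ a : ℕ, (∀ μ : Qb, μ ^ p = 1 → τ μ = μ ^ a) ∧ 1 ≤ a ∧
      ¬ p ∣ a - 1 := by
  have : NeZero p := ⟨hp.ne_zero⟩
  have h2p : 2 < p := lt_of_le_of_ne hp.two_le (Ne.symm hp2)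
  have hcop : Nat.Coprime 2 p :=
    (Nat.coprime_primes Nat.prime_two hp).2 (Ne.symm hp2)
  obtain ⟨τ, hτ, hu⟩ := BR.cycN_inertia_surjective_prime p hp P hP (ZMod.unitOfCoprime 2 hcop)
  have hval : ((BR.cycN p τ : (ZMod p)ˣ) : ZMod p).val = 2 := by
    rw [hu, ZMod.coe_unitOfCoprime]
    exact ZMod.val_natCast_of_lt h2p
  refine ⟨τ, hτ, 2, fun μ hμ => ?_, by norm_num, ?_⟩
  · rw [BR.cycN_spec p τ μ hμ, hval]
  · intro hd
    have : p ≤ 1 := Nat.le_of_dvd (by norm_num) hd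
    omega

end Fermat.Agent.S56.Ord
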